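import Fermat.Agent.S18.Spec
import Fermat.Agent.S28.H988.Degree
import Fermat.Agent.S28.H988.Tower
import Fermat.Prelude.Def_AlgebraicCurve_Correspondence

/-!
# S18, node D2: transfer `CORE(M) → CORE(N)`   (helper396, squad S18/S36)

`node_d2 : CoreStatement (levelM N ℓ) A m → CoreStatement N A m` for `ℓ ∤ N`, `ℓ ∤ m`
(exact type of `Fermat.Agent.S18.Integ.node_d2` in origin/helper18 `Integ/Skeleton.lean`).

* `mem_range_of_pow_mem` : Kummer descent by the norm (no Galois theory): `L/K` finite of degree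
  prime to `m`, all `m`-th roots of unity of `L` in `K`, `y ^ m ∈ K` ⇒ `y ∈ K`.
* `core_transfer` : `CoreStatement M A m → CoreStatement N A m` for `N ∣ M` with
  `[F_M : F_N]` prime to `m` (place restriction from the Prelude + Kummer descent).
* `core_levelM` : the statement of `node_d2` with `levelM` unfolded
  (`[F_{2N} : F_N] = 3`, `[F_{3N} : F_N] = 4` from landed `S28.H988.relfinrank_bar_mul_prime`).
-/

set_option autoImplicit false

noncomputable section

namespace Fermat.Agent.S18.H396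

open ModularCurve AlgebraicCurve HahnSeries IntermediateField

/-- **Kummer descent by the norm.** -/
theorem mem_range_of_pow_mem {K L : Type*} [Field K] [Field L] [Algebra K L]
    [FiniteDimensional K L] (m : ℕ) (hcop : Nat.Coprime m (Module.finrank K L))
    (hroots : ∀ ζ : L, ζ ^ m = 1 → ζ ∈ (algebraMap K L).fieldRange)
    (y : L) (hy : y ^ m ∈ (algebraMap K L).fieldRange) : y ∈ (algebraMap K L).fieldRange := by
  rcases eq_or_ne y 0 with rfl | hy0
  · exact Subfield.zero_mem _
  set d := Module.finrank K L with hd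
  obtain ⟨a, ha⟩ := hy
  set z : K := Algebra.norm K y with hz
  have hz0 : z ≠ 0 := by
    rw [hz, Ne, Algebra.norm_eq_zero_iff]
    exact hy0
  -- `z ^ m = a ^ d`
  have h1 : z ^ m = a ^ d := by
    rw [hz, ← map_pow, ← ha, Algebra.norm_algebraMap]
  have hzL : algebraMap K L z ≠ 0 := by
    rwa [Ne, map_eq_zero_iff _ (algebraMap K L).injective]
  have hyd : (y ^ d) ^ m = (algebraMap K L z) ^ m := by
    rw [← pow_mul, mul_comm, pow_mul, ← ha, ← map_pow, ← map_pow, h1]
  have h2 : (y ^ d * (algebraMap K L z)⁻¹) ^ m = 1 := by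
    rw [mul_pow, hyd, inv_pow, mul_inv_cancel₀ (pow_ne_zero _ hzL)]
  have hyd_mem : y ^ d ∈ (algebraMap K L).fieldRange := by
    have e : y ^ d = (y ^ d * (algebraMap K L z)⁻¹) * algebraMap K L z := by
      rw [mul_assoc, inv_mul_cancel₀ hzL, mul_one]
    rw [e]
    exact Subfield.mul_mem _ (hroots _ h2) ⟨z, rfl⟩
  have hym_mem : y ^ m ∈ (algebraMap K L).fieldRange := ⟨a, ha⟩
  -- Bezout
  have hb := Int.gcd_eq_gcd_ab (m : ℤ) (d : ℤ)
  have hg : ((Int.gcd (m : ℤ) (d : ℤ) : ℕ) : ℤ) = 1 := by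
    rw [Int.gcd_natCast_natCast]
    exact_mod_cast hcop
  rw [hg] at hb
  have e : y = (y ^ m) ^ (Int.gcdA (m : ℤ) (d : ℤ)) * (y ^ d) ^ (Int.gcdB (m : ℤ) (d : ℤ)) := by
    rw [← zpow_natCast y m, ← zpow_natCast y d, ← zpow_mul, ← zpow_mul, ← zpow_add₀ hy0, ← hb,
      zpow_one]
  rw [e]
  exact Subfield.mul_mem _ (Subfield.zpow_mem _ hym_mem _) (Subfield.zpow_mem _ hyd_mem _)

/-- Kummer descent for intermediate fields of a common ambient field. -/
theorem mem_of_pow_mem {F E : Type*} [Field F] [Field E] [Algebra F E]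
    (A B : IntermediateField F E) (h : A ≤ B) (m : ℕ)
    (hfin : A.relfinrank B ≠ 0) (hcop : Nat.Coprime m (A.relfinrank B))
    (hroots : ∀ ζ : E, ζ ^ m = 1 → ζ ∈ A)
    (y : E) (hyB : y ∈ B) (hy : y ^ m ∈ A) : y ∈ A := by
  rw [relfinrank_eq_finrank_of_le h] at hfin hcop
  have : FiniteDimensional A (extendScalars h) :=
    Module.finite_of_finrank_pos (Nat.pos_of_ne_zero hfin)
  have hyB' : y ∈ extendScalars h := (mem_extendScalars h).mpr hyB
  have key := mem_range_of_pow_mem (K := A) (L := extendScalars h) m hcop ?_ ⟨y, hyB'⟩ ?_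
  · obtain ⟨a, ha⟩ := key
    have : (a : E) = y := congrArg Subtype.val ha
    rw [← this]
    exact a.2
  · intro ζ hζ
    have hζE : (ζ : E) ^ m = 1 := by
      have := congrArg Subtype.val hζ
      simpa using this
    exact ⟨⟨(ζ : E), hroots _ hζE⟩, Subtype.ext rfl⟩
  · exact ⟨⟨y ^ m, hy⟩, Subtype.ext rfl⟩

/-- Over an algebraically closed field of constants, roots of unity are constants. -/
theorem root_of_unity_mem {F E : Type*} [Field F] [Field E] [Algebra F E] [IsAlgClosed F]
    (A : IntermediateField F E) (m : ℕ) (hm : m ≠ 0) (ζ : E) (hζ : ζ ^ m = 1) : ζ ∈ A := by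
  have hint : IsIntegral F ζ := by
    refine ⟨Polynomial.X ^ m - 1, Polynomial.monic_X_pow_sub_C 1 hm, ?_⟩
    simp [hζ]
  have hirr := minpoly.irreducible hint
  have hdeg := IsAlgClosed.degree_eq_one_of_irreducible F hirr
  obtain ⟨c, hc⟩ := minpoly.mem_range_of_degree_eq_one F ζ hdeg
  rw [← hc]
  exact A.algebraMap_mem c

/-- Integrality of the inclusion of intermediate fields of finite relative degree. -/
theorem inclusion_isIntegral {F E : Type*} [Field F] [Field E] [Algebra F E]
    (A B : IntermediateField F E) (h : A ≤ B) (hfin : A.relfinrank B ≠ 0) :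
    (IntermediateField.inclusion h).toRingHom.IsIntegral := by
  rw [relfinrank_eq_finrank_of_le h] at hfin
  have : FiniteDimensional A (extendScalars h) :=
    Module.finite_of_finrank_pos (Nat.pos_of_ne_zero hfin)
  intro y
  have hyB' : (y : E) ∈ extendScalars h := (mem_extendScalars h).mpr y.2
  obtain ⟨p, hp, hpy⟩ := Algebra.IsIntegral.isIntegral (R := A) (⟨(y : E), hyB'⟩ : extendScalars h)
  refine ⟨p, hp, ?_⟩
  -- compare the two evaluations inside `E`
  apply Subtype.val_injective
  have h1 := congrArg (Subtype.val : extendScalars h → E) hpy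
  rw [Polynomial.eval₂_eq_sum_range] at h1 ⊢
  simp only [ZeroMemClass.coe_zero] at h1 ⊢
  have h2 : ((∑ i ∈ Finset.range (p.natDegree + 1),
      (IntermediateField.inclusion h).toRingHom (p.coeff i) * y ^ i : B) : E)
      = ∑ i ∈ Finset.range (p.natDegree + 1), ((p.coeff i : A) : E) * (y : E) ^ i := by
    push_cast
    rfl
  rw [h2]
  have h3 : ((∑ i ∈ Finset.range (p.natDegree + 1),
      algebraMap A (extendScalars h) (p.coeff i) * (⟨(y : E), hyB'⟩ : extendScalars h) ^ i
        : extendScalars h) : E)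
      = ∑ i ∈ Finset.range (p.natDegree + 1), ((p.coeff i : A) : E) * (y : E) ^ i := by
    push_cast
    rfl
  rw [← h3]
  exact h1

theorem bar_mono {N M : ℕ} (hM : M ≠ 0) (h : N ∣ M) :
    modularFunctionFieldBar N ≤ modularFunctionFieldBar M := by
  rw [Fermat.Agent.S28.H988.modularFunctionFieldBar_eq_fullC,
    Fermat.Agent.S28.H988.modularFunctionFieldBar_eq_fullC]
  exact Fermat.Agent.S28.H988.full_mono _ hM h

theorem isInt_mono {A : ValuationSubring Qb} {N M : ℕ} (hM : M ≠ 0) (h : N ∣ M)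
    {U : LaurentSeries A} (hU : IsInt A N U) : IsInt A M U :=
  ⟨bar_mono hM h hU.1, Fermat.Agent.S28.H988.full_mono _ hM h hU.2.1, hU.2.2⟩

theorem coeffMap_subtype_ne_zero {A : ValuationSubring Qb} {U : LaurentSeries A}
    (hU : coeffMap (IsLocalRing.residue A) U ≠ 0) : coeffMap A.subtype U ≠ 0 := by
  intro h0
  apply hU
  have hU0 : U = 0 := by
    ext n
    have := congrArg (fun V : LaurentSeries Qb => V.coeff n) h0
    simp only [HahnSeries.coeff_zero] at this ⊢
    have h1 : ((U.coeff n : A) : Qb) = 0 := this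
    exact_mod_cast h1
  rw [hU0, map_zero]

/-- **Transfer.** `CORE(M) → CORE(N)` for `N ∣ M` when `[F_M : F_N]` is finite and prime to `m`. -/
theorem core_transfer (N M : ℕ) (hM : M ≠ 0) (hNM : N ∣ M) (A : ValuationSubring Qb) (m : ℕ)
    (hm : m ≠ 0)
    (hfin : (modularFunctionFieldBar N).relfinrank (modularFunctionFieldBar M) ≠ 0)
    (hcop : Nat.Coprime m ((modularFunctionFieldBar N).relfinrank (modularFunctionFieldBar M))) :
    CoreStatement M A m → CoreStatement N A m := by
  intro hcore U₁ U₂ h₁ h₂ hred hdiv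
  have hle := bar_mono hM hNM
  have h₁' : IsInt A M U₁ := isInt_mono hM hNM h₁
  have h₂' : IsInt A M U₂ := isInt_mono hM hNM h₂
  set φ : modularFunctionFieldBar N →ₐ[Qb] modularFunctionFieldBar M :=
    IntermediateField.inclusion hle with hφdef
  have hφ : φ.toRingHom.IsIntegral := inclusion_isIntegral _ _ hle hfin
  have e₁ : toF h₁' = φ (toF h₁) := Subtype.ext rfl
  have e₂ : toF h₂' = φ (toF h₂) := Subtype.ext rfl
  have hdiv' : ∀ w : Place Qb (modularFunctionFieldBar M),
      (m : ℤ) ∣ w.ord (toF h₁') - w.ord (toF h₂') := by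
    intro w
    rw [e₁, e₂, Place.ord_restrictAlong φ hφ w, Place.ord_restrictAlong φ hφ w, ← mul_sub]
    exact Dvd.dvd.mul_left (hdiv _) _
  obtain ⟨c, y, hc, hy, heq⟩ := hcore U₁ U₂ h₁' h₂' hred hdiv'
  -- the equation inside `Qb((q))`
  have heqE : coeffMap A.subtype U₁
      = algebraMap Qb (LaurentSeries Qb) c * (y : LaurentSeries Qb) ^ m * coeffMap A.subtype U₂ := by
    have := congrArg (Subtype.val : modularFunctionFieldBar M → LaurentSeries Qb) heq
    simpa [toF] using this
  have hU₂ : coeffMap A.subtype U₂ ≠ 0 := coeffMap_subtype_ne_zero h₂.2.2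
  have hcE : algebraMap Qb (LaurentSeries Qb) c ≠ 0 := by
    rwa [Ne, map_eq_zero_iff _ (algebraMap Qb (LaurentSeries Qb)).injective]
  -- `y ^ m ∈ F_N`
  have hym : (y : LaurentSeries Qb) ^ m ∈ modularFunctionFieldBar N := by
    have e : (y : LaurentSeries Qb) ^ m
        = coeffMap A.subtype U₁ * (algebraMap Qb (LaurentSeries Qb) c)⁻¹
          * (coeffMap A.subtype U₂)⁻¹ := by
      rw [heqE]
      field_simp
    rw [e]
    exact mul_mem (mul_mem h₁.1 (inv_mem ((modularFunctionFieldBar N).algebraMap_mem c)))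
      (inv_mem h₂.1)
  have hyN : (y : LaurentSeries Qb) ∈ modularFunctionFieldBar N :=
    mem_of_pow_mem _ _ hle m hfin hcop (fun ζ hζ => root_of_unity_mem _ m hm ζ hζ) _ y.2 hym
  refine ⟨c, ⟨(y : LaurentSeries Qb), hyN⟩, hc, ?_, ?_⟩
  · intro h0
    apply hy
    apply Subtype.ext
    have h0' : (y : LaurentSeries Qb) = 0 :=
      congrArg (Subtype.val : modularFunctionFieldBar N → LaurentSeries Qb) h0
    exact h0'
  · apply Subtype.ext
    simpa [toF] using heqE

/-- Transfer along `N ∣ N * p`, `p ∤ N` prime, `p + 1` prime to `m`. -/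
theorem core_transfer_mul_prime (N p : ℕ) (hN : N ≠ 0) (hp : p.Prime) (hpN : ¬ p ∣ N)
    (A : ValuationSubring Qb) (m : ℕ) (hm : m ≠ 0) (hcop : Nat.Coprime m (p + 1)) :
    CoreStatement (N * p) A m → CoreStatement N A m := by
  have hdeg := Fermat.Agent.S28.H988.relfinrank_bar_mul_prime N p hN hp
  rw [if_neg hpN] at hdeg
  refine core_transfer N (N * p) (Nat.mul_ne_zero hN hp.ne_zero) (Dvd.intro p rfl) A m hm ?_ ?_
  · rw [hdeg]; exact Nat.succ_ne_zero p
  · rw [hdeg]; exact hcop

/-- **NODE D2** with `levelM` unfolded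
(`levelM N ℓ = if ℓ = 3 then lcm N 2 else if ℓ = 2 then lcm N 3 else N`). -/
theorem core_levelM (N : ℕ) [NeZero N] {ℓ : ℕ} [Fact ℓ.Prime] (_hℓN : ¬ ℓ ∣ N)
    (A : ValuationSubring Qb) (_hA : A.LiesOverPrime ℓ) (m : ℕ) (hm : ¬ ℓ ∣ m) :
    CoreStatement (if ℓ = 3 then Nat.lcm N 2 else if ℓ = 2 then Nat.lcm N 3 else N) A m →
      CoreStatement N A m := by
  have hN : N ≠ 0 := NeZero.ne N
  have hm0 : m ≠ 0 := by
    rintro rfl
    exact hm (dvd_zero ℓ)
  split_ifs with h3 h2
  · -- `ℓ = 3`, level `lcm N 2`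
    subst h3
    by_cases h2N : 2 ∣ N
    · rw [Nat.lcm_eq_left h2N]
      exact id
    · have hc : Nat.Coprime N 2 := by
        rw [Nat.coprime_comm, Nat.Prime.coprime_iff_not_dvd Nat.prime_two]
        exact h2N
      rw [hc.lcm_eq_mul]
      refine core_transfer_mul_prime N 2 hN Nat.prime_two h2N A m hm0 ?_
      rw [Nat.coprime_comm]
      exact (Nat.Prime.coprime_iff_not_dvd Nat.prime_three).mpr hm
  · -- `ℓ = 2`, level `lcm N 3`
    subst h2
    by_cases h3N : 3 ∣ N
    · rw [Nat.lcm_eq_left h3N]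
      exact id
    · have hc : Nat.Coprime N 3 := by
        rw [Nat.coprime_comm, Nat.Prime.coprime_iff_not_dvd Nat.prime_three]
        exact h3N
      rw [hc.lcm_eq_mul]
      refine core_transfer_mul_prime N 3 hN Nat.prime_three h3N A m hm0 ?_
      have h2m : Nat.Coprime m 2 := by
        rw [Nat.coprime_comm]
        exact (Nat.Prime.coprime_iff_not_dvd Nat.prime_two).mpr hm
      have : (3 + 1 : ℕ) = 2 ^ 2 := by norm_num
      rw [this]
      exact Nat.Coprime.pow_right 2 h2m
  · exact id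

end Fermat.Agent.S18.H396
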